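import Fermat.Agent.Jac27.Spread.Constants

/-!
# Existence of extensions of the constants of a function field
-/

set_option autoImplicit false
set_option linter.style.haveILetI false
set_option linter.unusedSectionVars false

noncomputable section

namespace FLTAgent.AV.Const

open FLTAgent.Curves FLTAgent.Jac27.Spread Polynomial IntermediateField

universe u

variable {L₀ L F₀ Ω : Type u} [Field L₀] [Field L] [Field F₀] [Field Ω] [Algebra L₀ L]
  [Algebra L₀ F₀] [Algebra L Ω] [Algebra L₀ Ω] [IsScalarTower L₀ L Ω] [IsFunctionField L₀ F₀]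

/-- The corestriction of an embedding to the field it generates over the larger constants. -/
def toAdjoin (j₀ : F₀ →ₐ[L₀] Ω) : F₀ →ₐ[L₀] IntermediateField.adjoin L (Set.range j₀) :=
  AlgHom.codRestrict j₀
    ((IntermediateField.adjoin L (Set.range j₀)).toSubalgebra.restrictScalars L₀) fun x =>
      IntermediateField.subset_adjoin L _ ⟨x, rfl⟩

theorem coe_toAdjoin (j₀ : F₀ →ₐ[L₀] Ω) (x : F₀) : (toAdjoin (L := L) j₀ x : Ω) = j₀ x := rfl

/-- An embedding keeping a coordinate transcendental over the larger constants generates an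
extension of the constants. -/
theorem constExt_adjoin (j₀ : F₀ →ₐ[L₀] Ω) {t : F₀} (ht : Transcendental L₀ t)
    (hjt : Transcendental L (j₀ t)) :
    IsFunctionField L (IntermediateField.adjoin L (Set.range j₀)) ∧
      ConstExt (K := L) (toAdjoin (L := L) j₀) := by
  haveI := finiteDimensional_adjoin (K := L₀) ht
  set b := Module.finBasis L₀⟮t⟯ F₀
  set E : IntermediateField L Ω := IntermediateField.adjoin L (Set.range j₀) with hE
  let ι : F₀ →ₐ[L₀] E := toAdjoin (L := L) j₀
  have hgen : IntermediateField.adjoin L (Set.range ι) = ⊤ := by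
    refine IntermediateField.map_injective E.val ?_
    rw [IntermediateField.adjoin_map, ← AlgHom.fieldRange_eq_map, IntermediateField.fieldRange_val,
      ← Set.range_comp]
    rfl
  have htr : Transcendental L (ι t) := fun h => hjt (h.algHom E.val)
  let e : L₀⟮t⟯ →+* L⟮ι t⟯ :=
    { toFun := fun z => ⟨ι z, map_adjoin_simple_mem ι z.2⟩
      map_one' := Subtype.ext (map_one ι)
      map_mul' := fun a a' => Subtype.ext (map_mul ι _ _)
      map_zero' := Subtype.ext (map_zero ι)
      map_add' := fun a a' => Subtype.ext (map_add ι _ _) }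
  have halg : ∀ i, IsAlgebraic L⟮ι t⟯ (ι (b i)) := fun i => by
    obtain ⟨q, hq, hq0⟩ := (Algebra.IsAlgebraic.isAlgebraic (b i) : IsAlgebraic L₀⟮t⟯ (b i))
    refine ⟨q.map e, fun h0 => hq ((Polynomial.map_eq_zero_iff e.injective).1 h0), ?_⟩
    rw [aeval_def, eval₂_map, ← map_zero ι, ← hq0, aeval_def]
    exact (Polynomial.hom_eval₂ q (algebraMap L₀⟮t⟯ F₀) ι.toRingHom (b i)).symm
  set T : Set E := Set.range fun i => ι (b i) with hT
  haveI : FiniteDimensional L⟮ι t⟯ (IntermediateField.adjoin L⟮ι t⟯ T) :=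
    IntermediateField.finiteDimensional_adjoin (fun y hy => by
      obtain ⟨i, rfl⟩ := hy
      exact (halg i).isIntegral)
  have htop : IntermediateField.adjoin L⟮ι t⟯ T = ⊤ := by
    apply IntermediateField.restrictScalars_injective L
    rw [IntermediateField.restrictScalars_top, eq_top_iff, ← hgen]
    refine IntermediateField.adjoin_le_iff.2 ?_
    rintro _ ⟨f, rfl⟩
    rw [← b.sum_repr f, map_sum]
    refine sum_mem fun i _ => ?_
    rw [IntermediateField.smul_def, smul_eq_mul, map_mul]
    have h1 : ι (b.repr f i : F₀) ∈ IntermediateField.adjoin L⟮ι t⟯ T :=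
      IntermediateField.algebraMap_mem (IntermediateField.adjoin L⟮ι t⟯ T)
        (⟨ι (b.repr f i : F₀), map_adjoin_simple_mem ι (b.repr f i).2⟩ : L⟮ι t⟯)
    have h2 : ι (b i) ∈ IntermediateField.adjoin L⟮ι t⟯ T :=
      IntermediateField.subset_adjoin _ _ ⟨i, rfl⟩
    exact mul_mem h1 h2
  have hfin : FiniteDimensional L⟮ι t⟯ E := Module.Finite.equiv
    ((IntermediateField.equivOfEq htop).trans IntermediateField.topEquiv).toLinearEquiv
  exact ⟨IsFunctionField.mk_of (ι t) htr hfin, hgen, t, htr⟩

/-- The value of a transcendental element under a field embedding can be prescribed. -/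
theorem exists_algHom [IsAlgClosed Ω] {t : F₀} (ht : Transcendental L₀ t) {τ : Ω}
    (hτ : Transcendental L₀ τ) : ∃ j₀ : F₀ →ₐ[L₀] Ω, j₀ t = τ := by
  haveI := finiteDimensional_adjoin (K := L₀) ht
  let f₀ : L₀⟮t⟯ →ₐ[L₀] Ω :=
    (L₀⟮τ⟯.val.comp (RatFunc.algEquivOfTranscendental τ hτ).toAlgHom).comp
      (RatFunc.algEquivOfTranscendental t ht).symm.toAlgHom
  have hf₀ : f₀ ⟨t, mem_adjoin_simple_self L₀ t⟩ = τ := by
    have e : ∀ {E : Type u} [Field E] [Algebra L₀ E] (s : E) (hs : Transcendental L₀ s),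
        RatFunc.algEquivOfTranscendental s hs (algebraMap L₀[X] (RatFunc L₀) X) =
          ⟨s, mem_adjoin_simple_self L₀ s⟩ := fun s hs => Subtype.ext (by
      rw [RatFunc.algEquivOfTranscendental_algebraMap]; simp)
    show (L₀⟮τ⟯).val (RatFunc.algEquivOfTranscendental τ hτ
      ((RatFunc.algEquivOfTranscendental t ht).symm ⟨t, mem_adjoin_simple_self L₀ t⟩)) = τ
    rw [← e t ht, AlgEquiv.symm_apply_apply, e τ hτ]
    rfl
  letI : Algebra L₀⟮t⟯ Ω := f₀.toRingHom.toAlgebra
  let j : F₀ →ₐ[L₀⟮t⟯] Ω := IsAlgClosed.lift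
  refine ⟨{ toRingHom := j.toRingHom
            commutes' := fun c => ?_ }, ?_⟩
  · show j (algebraMap L₀ F₀ c) = _
    rw [IsScalarTower.algebraMap_apply L₀ L₀⟮t⟯ F₀, j.commutes]
    exact f₀.commutes c
  · show j (algebraMap L₀⟮t⟯ F₀ ⟨t, mem_adjoin_simple_self L₀ t⟩) = τ
    rw [j.commutes]
    exact hf₀

variable (L₀ L F₀) in
/-- The constants of a function field extend to every extension. -/
theorem exists_constExt :
    ∃ (F : Type u) (_ : Field F) (_ : Algebra L F) (_ : Algebra L₀ F) (_ : IsScalarTower L₀ L F)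
      (_ : IsFunctionField L F) (ι : F₀ →ₐ[L₀] F), ConstExt (K := L) ι := by
  obtain ⟨t, ht, -⟩ := IsFunctionField.exists_transcendental (K := L₀) (F := F₀)
  let W := AlgebraicClosure (RatFunc L)
  letI : Algebra L₀ (RatFunc L) := inferInstance
  haveI : IsScalarTower L₀ L (RatFunc L) := IsScalarTower.of_algebraMap_eq fun c => by
    rw [IsScalarTower.algebraMap_apply L₀ L[X] (RatFunc L),
      IsScalarTower.algebraMap_apply L L[X] (RatFunc L)]
    rfl
  haveI : IsScalarTower L₀ L W := IsScalarTower.of_algebraMap_eq fun c => by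
    rw [IsScalarTower.algebraMap_apply L₀ (RatFunc L) W, IsScalarTower.algebraMap_apply L (RatFunc L) W,
      ← IsScalarTower.algebraMap_apply L₀ L (RatFunc L)]
  have hτ : Transcendental L (algebraMap (RatFunc L) W RatFunc.X) :=
    (transcendental_algebraMap_iff (algebraMap (RatFunc L) W).injective).2
      RatFunc.transcendental_X
  obtain ⟨j₀, hj⟩ := exists_algHom (Ω := W) ht
    (τ := algebraMap (RatFunc L) W RatFunc.X)
    (fun h => hτ (h.extendScalars (algebraMap L₀ L).injective))
  obtain ⟨h1, h2⟩ := constExt_adjoin (L := L) j₀ ht (hj ▸ hτ)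
  exact ⟨_, inferInstance, inferInstance, inferInstance, inferInstance, h1, _, h2⟩

end FLTAgent.AV.Const
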