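import Fermat.Agent.AV.Const.Residual
import Fermat.Agent.Jac27.Spread.Constants

/-!
# Smooth models of constant extensions of one curve

Two extensions of the constants of one function field are linked by a smooth model along every
residue map between the constants. Degrees, pole divisors, the dimensions of the spaces of sections
and the genus do not change under an extension of the constants.
-/

set_option autoImplicit false
set_option linter.style.haveILetI false
set_option linter.unusedSectionVars false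

noncomputable section

open scoped Classical TensorProduct

namespace FLTAgent.AV.Const

open AlgebraicCurve FLTAgent.Curves FLTAgent.Specialization FLTAgent.Jac27.Spread Polynomial
  IntermediateField

variable {L₀ L k F₀ F Fb : Type*} [Field L₀] [Field L] [Field k] [Field F₀] [Field F] [Field Fb]
  [Algebra L₀ F₀] [Algebra L₀ L] [Algebra L₀ k] [Algebra L F] [Algebra L₀ F] [IsScalarTower L₀ L F]
  [Algebra k Fb] [Algebra L₀ Fb] [IsScalarTower L₀ k Fb]
  [IsAlgClosed L₀] [IsAlgClosed L] [IsAlgClosed k]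
  [IsFunctionField L₀ F₀] [IsFunctionField L F] [IsFunctionField k Fb]
  (ιL : F₀ →ₐ[L₀] F) (ιk : F₀ →ₐ[L₀] Fb)
  (hL : ConstExt (K := L) ιL) (hk : ConstExt (K := k) ιk)

/-! ### What does not change -/

theorem poleDiv_map (f : F₀) : poleDiv L (ιL f) = liftDiv ιL hL (poleDiv L₀ f) := by
  ext w
  by_cases hw : w ∈ Set.range (liftPlace ιL hL)
  · obtain ⟨v, rfl⟩ := hw
    rw [liftDiv_apply, poleDiv_apply, poleDiv_apply, ord_liftPlace]
  · rw [liftDiv_apply_notMem ιL hL _ hw, poleDiv_apply]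
    have h : w.ord (ιL f) = 0 := by
      by_contra hne
      exact hw (mem_range_liftPlace ιL hL hne)
    omega

include hL in
theorem finrank_map {t : F₀} (ht : Transcendental L₀ t) :
    Module.finrank L⟮ιL t⟯ F = Module.finrank L₀⟮t⟯ F₀ := by
  have h1 := degree_poleDiv (transcendental_map ιL hL ht)
  rw [poleDiv_map ιL hL, degree_liftDiv, degree_poleDiv ht] at h1
  exact_mod_cast h1.symm

/-! ### Models -/

variable {A : ValuationSubring L} {π : A →+* k} (hπ : Function.Surjective π)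
  (hπ₀ : ∀ c : L₀, ∃ h : algebraMap L₀ L c ∈ A, π ⟨_, h⟩ = algebraMap L₀ k c)

include hL hπ₀ in
/-- The reduction of the functions defined over the integral constants. -/
theorem exists_reduction :
    ∃ R : Reduction π F Fb, ∀ f : F₀, R.Res (ιL f) (ιk f) := by
  letI : Algebra L₀ A :=
    ((algebraMap L₀ L).codRestrict A.toSubring fun c => (hπ₀ c).1).toAlgebra
  let jA : A →ₐ[L₀] F :=
    { toRingHom := (algebraMap L F).comp A.subtype
      commutes' := fun c => (IsScalarTower.algebraMap_apply L₀ L F c).symm }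
  let jπ : A →ₐ[L₀] Fb :=
    { toRingHom := (algebraMap k Fb).comp π
      commutes' := fun c => by
        show algebraMap k Fb (π ⟨algebraMap L₀ L c, (hπ₀ c).1⟩) = algebraMap L₀ Fb c
        rw [(hπ₀ c).2, ← IsScalarTower.algebraMap_apply] }
  let Φ : A ⊗[L₀] F₀ →ₐ[L₀] F := Algebra.TensorProduct.lift jA ιL fun _ _ => Commute.all _ _
  let Ψ : A ⊗[L₀] F₀ →ₐ[L₀] Fb := Algebra.TensorProduct.lift jπ ιk fun _ _ => Commute.all _ _
  have hΦ : ∀ a f, Φ (a ⊗ₜ f) = algebraMap L F (a : L) * ιL f := fun a f =>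
    Algebra.TensorProduct.lift_tmul _ _ _ _ _
  have hΨ : ∀ a f, Ψ (a ⊗ₜ f) = algebraMap k Fb (π a) * ιk f := fun a f =>
    Algebra.TensorProduct.lift_tmul _ _ _ _ _
  have hinj : ∀ x, Φ x = 0 → x = 0 := by
    intro x hx
    let b := Module.Basis.ofVectorSpace L₀ F₀
    obtain ⟨m, rfl⟩ := TensorProduct.eq_repr_basis_right b x
    rw [Finsupp.sum, map_sum] at hx
    simp only [hΦ] at hx
    rw [Finsupp.sum]
    refine Finset.sum_eq_zero fun i hi => ?_
    set s := m.support
    let e := s.equivFin.symm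
    have hli : LinearIndependent L₀ fun j : Fin s.card => b (e j : s) :=
      b.linearIndependent.comp _ (Subtype.val_injective.comp e.injective)
    have h1 : ∑ j : Fin s.card, ((m (e j : s) : A) : L) • (ιL ∘ fun j => b (e j : s)) j = 0 := by
      rw [← Finset.sum_coe_sort, ← Fintype.sum_equiv e _ _ (fun j => rfl)] at hx
      simpa [Algebra.smul_def] using hx
    have h2 := Fintype.linearIndependent_iff.1 (linearIndependent_map ιL hL hli) _ h1
      (e.symm ⟨i, hi⟩)
    simp only [Equiv.apply_symm_apply] at h2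
    rw [show m i = 0 from Subtype.ext h2, TensorProduct.zero_tmul]
  have hΦ0 : ∀ x, Ψ x ≠ 0 → Φ x ≠ 0 := fun x hx h => hx (by rw [hinj x h, map_zero])
  -- the graph of the reduction
  let Γ : Subring (F × Fb) :=
    { carrier := {z | ∃ a b, Ψ b ≠ 0 ∧ z = (Φ a / Φ b, Ψ a / Ψ b)}
      one_mem' := ⟨1, 1, by simp, by simp [Prod.ext_iff]⟩
      zero_mem' := ⟨0, 1, by simp, by simp [Prod.ext_iff]⟩
      mul_mem' := by
        rintro _ _ ⟨a, b, hb, rfl⟩ ⟨a', b', hb', rfl⟩
        refine ⟨a * a', b * b', by rw [map_mul]; exact mul_ne_zero hb hb', ?_⟩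
        simp only [map_mul, Prod.mk_mul_mk, div_mul_div_comm]
      add_mem' := by
        rintro _ _ ⟨a, b, hb, rfl⟩ ⟨a', b', hb', rfl⟩
        refine ⟨a * b' + b * a', b * b', by rw [map_mul]; exact mul_ne_zero hb hb', ?_⟩
        simp only [map_mul, map_add, Prod.mk_add_mk]
        rw [div_add_div _ _ (hΦ0 b hb) (hΦ0 b' hb'), div_add_div _ _ hb hb']
      neg_mem' := by
        rintro _ ⟨a, b, hb, rfl⟩
        exact ⟨-a, b, hb, by simp [neg_div]⟩ }
  let p : Γ →+* F := (RingHom.fst F Fb).comp Γ.subtype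
  have hp : Function.Injective p := by
    rw [injective_iff_map_eq_zero]
    rintro ⟨_, a, b, hb, rfl⟩ h
    have h' : Φ a / Φ b = 0 := h
    rw [div_eq_zero_iff, or_iff_left (hΦ0 b hb)] at h'
    have ha := hinj a h'
    exact Subtype.ext (by simp [ha])
  let e : Γ ≃+* p.range := RingEquiv.ofBijective p.rangeRestrict
    ⟨fun x y h => hp (congrArg Subtype.val h), p.rangeRestrict_surjective⟩
  let red : p.range →+* Fb := ((RingHom.snd F Fb).comp Γ.subtype).comp e.symm.toRingHom
  have hred : ∀ (z : F × Fb) (hz : z ∈ Γ), red (p.rangeRestrict ⟨z, hz⟩) = z.2 := fun z hz => by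
    show ((e.symm (e ⟨z, hz⟩) : Γ) : F × Fb).2 = z.2
    rw [e.symm_apply_apply]
  have hmem : ∀ a b, Ψ b ≠ 0 → ∃ h : Φ a / Φ b ∈ p.range, red ⟨_, h⟩ = Ψ a / Ψ b :=
    fun a b hb => ⟨⟨⟨_, a, b, hb, rfl⟩, rfl⟩, hred (Φ a / Φ b, Ψ a / Ψ b) ⟨a, b, hb, rfl⟩⟩
  have hone : ∀ a, ∃ h : Φ a ∈ p.range, red ⟨_, h⟩ = Ψ a := fun a => by
    obtain ⟨h, h'⟩ := hmem a 1 (by simp)
    have e1 : Φ a / Φ 1 = Φ a := by simp
    refine ⟨e1 ▸ h, ?_⟩
    have e2 : (⟨Φ a, e1 ▸ h⟩ : p.range) = ⟨_, h⟩ := Subtype.ext e1.symm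
    rw [e2, h']
    simp
  refine ⟨{
    O := p.range
    red := red
    algebraMap_mem := fun a => ?_
    red_algebraMap := fun a => ?_
    inv_mem := ?_ }, fun f => ?_⟩
  · obtain ⟨h, -⟩ := hone (a ⊗ₜ 1)
    rwa [hΦ, map_one, mul_one] at h
  · obtain ⟨h, h'⟩ := hone (a ⊗ₜ 1)
    rw [hΨ, map_one, mul_one] at h'
    refine Eq.trans ?_ h'
    exact congrArg red (Subtype.ext (Eq.symm ((hΦ a 1).trans ((congrArg _ (map_one ιL)).trans (mul_one _)))))
  · rintro ⟨_, ⟨z, a, b, hb, rfl⟩, rfl⟩ h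
    have ha : Ψ a ≠ 0 := fun ha => h (by
      refine (hred (Φ a / Φ b, Ψ a / Ψ b) ⟨a, b, hb, rfl⟩).trans ?_
      rw [ha, zero_div])
    obtain ⟨h1, -⟩ := hmem b a ha
    show (Φ a / Φ b)⁻¹ ∈ p.range
    rwa [inv_div]
  · obtain ⟨h, h'⟩ := hone (1 ⊗ₜ f)
    have eL : Φ (1 ⊗ₜ f) = ιL f := by rw [hΦ, OneMemClass.coe_one, map_one, one_mul]
    have ek : Ψ (1 ⊗ₜ f) = ιk f := by rw [hΨ, map_one, map_one, one_mul]
    refine ⟨eL ▸ h, ?_⟩
    refine Eq.trans ?_ (h'.trans ek)
    exact congrArg red (Subtype.ext eL.symm)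

include hL hk hπ hπ₀ in
/-- A model through every residue map, before smoothness. -/
theorem exists_model_aux {t : F₀} (ht : Transcendental L₀ t) :
    ∃ M : Model π F Fb, M.x = ιL t ∧ M.xb = ιk t ∧ ∀ f, M.Res (ιL f) (ιk f) := by
  obtain ⟨R, hR⟩ := exists_reduction ιL ιk hL hπ₀
  refine ⟨{
    toReduction := R
    surj := hπ
    x := ιL t
    xb := ιk t
    x_res := hR t
    transcendental := transcendental_map ιk hk ht
    finrank_eq := by rw [finrank_map ιL hL ht, finrank_map ιk hk ht]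
    gen := fun z => ?_ }, rfl, rfl, hR⟩
  have hle : IntermediateField.adjoin k (Set.range ιk) ≤
      IntermediateField.adjoin k (Set.range R.red) :=
    IntermediateField.adjoin_le_iff.2 (by
      rintro _ ⟨f, rfl⟩
      exact IntermediateField.subset_adjoin k _ ⟨⟨_, (hR f).1⟩, (hR f).2⟩)
  exact hle (hk.gen ▸ IntermediateField.mem_top)

include hL hk in
/-- The extension of a place specialises to the extension of the place. -/
theorem place_liftPlace {M : Model π F Fb} (hM : M.Smooth)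
    (hres : ∀ f, M.Res (ιL f) (ιk f)) (v : Place L₀ F₀) :
    Model.place hM (liftPlace ιL hL v) = liftPlace ιk hk v := by
  obtain ⟨t, N, hN, ht, hdiv⟩ := exists_only_pole (K := L₀) v
  have h0 : ιk t ≠ 0 := by
    simpa using ne_zero_of_transcendental ht
  have h1 := congrArg (fun D : Divisor k Fb => D (liftPlace ιk hk v))
    (Model.divMap_divOf hM (hres t) h0)
  simp only [divOf_apply, ord_liftPlace] at h1
  rw [divOf_eq_sub, map_sub, poleDiv_map ιL hL t, hdiv] at h1
  have hv : v.ord t = -(N : ℤ) := by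
    have := congrArg (fun D : Divisor L₀ F₀ => D v) hdiv
    simp only [poleDiv_apply, Finsupp.single_eq_same] at this
    omega
  by_contra hne
  have h2 : (Model.divMap hM) (liftDiv ιL hL (Finsupp.single v (N : ℤ))) (liftPlace ιk hk v) = 0 := by
    rw [show liftDiv ιL hL (Finsupp.single v (N : ℤ)) = Finsupp.single (liftPlace ιL hL v) (N : ℤ) from
      Finsupp.mapDomain_single, Model.divMap_single, Finsupp.single_apply, if_neg hne]
  rw [Finsupp.sub_apply, h2, hv] at h1
  have h3 : 0 ≤ (Model.divMap hM) (poleDiv L (ιL t)⁻¹) (liftPlace ιk hk v) :=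
    Model.divMap_nonneg hM (poleDiv_nonneg _) _
  omega

include hL hk in
theorem divMap_liftDiv {M : Model π F Fb} (hM : M.Smooth)
    (hres : ∀ f, M.Res (ιL f) (ιk f)) (D : Divisor L₀ F₀) :
    Model.divMap hM (liftDiv ιL hL D) = liftDiv ιk hk D := by
  show Finsupp.mapDomain (Model.place hM) (Finsupp.mapDomain (liftPlace ιL hL) D) =
    Finsupp.mapDomain (liftPlace ιk hk) D
  rw [← Finsupp.mapDomain_comp]
  congr 1
  funext v
  exact place_liftPlace ιL ιk hL hk hM hres v

/-! ### The trivial extension -/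

theorem constExt_id : ConstExt (K := L₀) (AlgHom.id L₀ F₀) := by
  obtain ⟨t, ht, -⟩ := IsFunctionField.exists_transcendental (K := L₀) (F := F₀)
  refine ⟨?_, t, ht⟩
  rw [show Set.range (AlgHom.id L₀ F₀) = Set.univ from Set.range_id, eq_top_iff]
  exact fun z _ => IntermediateField.subset_adjoin _ _ (Set.mem_univ z)

theorem liftPlace_id (v : Place L₀ F₀) :
    liftPlace (AlgHom.id L₀ F₀) constExt_id v = v := by
  refine Place.ext ?_
  ext f
  rcases eq_or_ne f 0 with rfl | hf
  · simp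
  rw [mem_iff_ord_nonneg hf, mem_iff_ord_nonneg hf]
  conv_rhs => rw [← ord_liftPlace (AlgHom.id L₀ F₀) constExt_id v f]
  rfl

theorem liftDiv_id (D : Divisor L₀ F₀) : liftDiv (AlgHom.id L₀ F₀) constExt_id D = D := by
  show Finsupp.mapDomain (liftPlace (AlgHom.id L₀ F₀) constExt_id) D = D
  rw [show liftPlace (AlgHom.id L₀ F₀) constExt_id = id from funext liftPlace_id,
    Finsupp.mapDomain_id]

include hL in
/-- Extending the constants does not change dimensions of section spaces. -/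
theorem ell_liftDiv (D : Divisor L₀ F₀) : ell (liftDiv ιL hL D) = ell D := by
  refine le_antisymm ?_ (ell_le ιL hL D)
  let R : Subring L := (algebraMap L₀ L).range
  let χ : R →+* L₀ :=
    (RingEquiv.ofBijective (algebraMap L₀ L).rangeRestrict
      ⟨fun x y h => (algebraMap L₀ L).injective (congrArg Subtype.val h),
        (algebraMap L₀ L).rangeRestrict_surjective⟩).symm.toRingHom
  obtain ⟨A, π, hπ, -, hext⟩ := exists_residual R χ (fun c => ⟨c, rfl⟩) fun c =>
    RingEquiv.symm_apply_apply _ c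
  have hπ₀ : ∀ c : L₀, ∃ h : algebraMap L₀ L c ∈ A, π ⟨_, h⟩ = algebraMap L₀ L₀ c := fun c => by
    obtain ⟨h, h'⟩ := hext ⟨_, c, rfl⟩
    exact ⟨h, h'.trans (RingEquiv.symm_apply_apply _ c)⟩
  obtain ⟨t, ht, -⟩ := IsFunctionField.exists_transcendental (K := L₀) (F := F₀)
  obtain ⟨M, hx, hxb, hres⟩ :=
    exists_model_aux ιL (AlgHom.id L₀ F₀) hL constExt_id hπ hπ₀ ht
  have hM : M.Smooth := ⟨0, fun m _ => by
    rw [hx, hxb, poleDiv_map ιL hL, ← map_zsmul]
    exact ell_le ιL hL _⟩
  rw [← M.ell_image]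
  refine Int.ofNat_le.2 (Submodule.finrank_mono (Reduction.image_le fun f g hf h => ?_))
  have := Model.res_mem_rrSpace hM hf h
  rwa [divMap_liftDiv ιL (AlgHom.id L₀ F₀) hL constExt_id hM hres, liftDiv_id] at this

include hL in
/-- Extending the constants does not change the genus. -/
theorem rGenus_map_eq : rGenus L F = rGenus L₀ F₀ := by
  refine le_antisymm (rGenus_map_le ιL hL) ?_
  obtain ⟨t, ht, -⟩ := IsFunctionField.exists_transcendental (K := L₀) (F := F₀)
  obtain ⟨v, -⟩ := exists_ord_pos (K := L₀) ht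
  set G : Divisor L₀ F₀ := Finsupp.single v (max (rBound L₀ F₀) (rBound L F)) with hG
  have hd : Divisor.degree G = max (rBound L₀ F₀) (rBound L F) := degree_single' _ _
  have h1 := ell_liftDiv ιL hL G
  rw [ell_eq (G := G) (by rw [hd]; exact le_max_left _ _),
    ell_eq (G := liftDiv ιL hL G) (by rw [degree_liftDiv, hd]; exact le_max_right _ _),
    degree_liftDiv] at h1
  omega

include hL hk hπ hπ₀ in
/-- A smooth model through every residue map. -/
theorem exists_model : ∃ M : Model π F Fb, M.Smooth ∧ ∀ f, M.Res (ιL f) (ιk f) := by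
  obtain ⟨t, ht, -⟩ := IsFunctionField.exists_transcendental (K := L₀) (F := F₀)
  obtain ⟨M, hx, hxb, hres⟩ := exists_model_aux ιL ιk hL hk hπ hπ₀ ht
  refine ⟨M, ⟨0, fun m _ => le_of_eq ?_⟩, hres⟩
  rw [hx, hxb, poleDiv_map ιL hL, poleDiv_map ιk hk, ← map_zsmul, ← map_zsmul,
    ell_liftDiv ιk hk, ell_liftDiv ιL hL]

end FLTAgent.AV.Const
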