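import Mathlib

/-!
# Extension of residue maps with an algebraically closed target

A homomorphism from a subring to an algebraically closed field of constants extends to the residue
map of a valuation subring with the same residue field.
-/

set_option autoImplicit false

noncomputable section

namespace FLTAgent.AV.Const

open Polynomial

variable {L k : Type*} [Field L] [Field k] [Algebra k L]

/-- The subring of pairs is the graph of a partial map. -/
def IsGraph (Γ : Subring (L × k)) : Prop := ∀ c : k, ((0 : L), c) ∈ Γ → c = 0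

theorem IsGraph.eq {Γ : Subring (L × k)} (h : IsGraph Γ) {x : L} {c d : k} (hc : (x, c) ∈ Γ)
    (hd : (x, d) ∈ Γ) : c = d := by
  refine sub_eq_zero.1 (h _ ?_)
  have := sub_mem hc hd
  rwa [Prod.mk_sub_mk, sub_self] at this

variable [IsAlgClosed k]

/-- A maximal graph containing the constants is the residue map of a valuation subring. -/
theorem mem_of_maximal {Γ : Subring (L × k)} (hG : IsGraph Γ)
    (hk : ∀ c : k, (algebraMap k L c, c) ∈ Γ)
    (hmax : ∀ Γ' : Subring (L × k), IsGraph Γ' → Γ ≤ Γ' → Γ' ≤ Γ) :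
    ∃ B : ValuationSubring L, ∀ x : L, x ∈ B ↔ ∃ c, (x, c) ∈ Γ := by
  set R := Γ.map (RingHom.fst L k) with hR
  have hmem : ∀ x, x ∈ R ↔ ∃ c, (x, c) ∈ Γ := fun x =>
    ⟨fun ⟨⟨y, c⟩, h, e⟩ => ⟨c, by subst e; exact h⟩, fun ⟨c, h⟩ => ⟨(x, c), h, rfl⟩⟩
  let I : Ideal R :=
    { carrier := {a | ((a : L), (0 : k)) ∈ Γ}
      add_mem' := fun {a b} ha hb => by
        have ha' : ((a : L), (0 : k)) ∈ Γ := ha
        have hb' : ((b : L), (0 : k)) ∈ Γ := hb
        have := add_mem ha' hb'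
        rwa [Prod.mk_add_mk, add_zero] at this
      zero_mem' := Γ.zero_mem
      smul_mem' := fun r a ha => by
        obtain ⟨c, hc⟩ := (hmem r).1 r.2
        have ha' : ((a : L), (0 : k)) ∈ Γ := ha
        have := mul_mem hc ha'
        rwa [Prod.mk_mul_mk, mul_zero] at this }
  have hI : I ≠ ⊤ := fun h => one_ne_zero (α := k)
    (hG.eq (x := (1 : L)) Γ.one_mem ((Ideal.eq_top_iff_one I).1 h))
  obtain ⟨B, hRB, hB⟩ := Ideal.image_subset_nonunits_valuationSubring I hI
  refine ⟨B, fun x => ⟨fun hx => ?_, fun ⟨c, h⟩ => hRB ((hmem x).2 ⟨c, h⟩)⟩⟩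
  let res : B →+* IsLocalRing.ResidueField B := IsLocalRing.residue B
  let xB : B := ⟨x, hx⟩
  have hkB : ∀ c : k, algebraMap k L c ∈ B := fun c => hRB ((hmem _).2 ⟨c, hk c⟩)
  let κ : k →+* B := (algebraMap k L).codRestrict B.toSubring hkB
  have hres : ∀ (a : L) (c : k) (h : (a, c) ∈ Γ),
      res ⟨a, hRB ((hmem a).2 ⟨c, h⟩)⟩ = res (κ c) := by
    intro a c h
    rw [← sub_eq_zero, ← map_sub, IsLocalRing.residue_eq_zero_iff]
    have h0 : (a - algebraMap k L c, (0 : k)) ∈ Γ := by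
      have := sub_mem h (hk c)
      rwa [Prod.mk_sub_mk, sub_self] at this
    have h1 : a - algebraMap k L c ∈ B.nonunits :=
      hB ⟨⟨_, (hmem _).2 ⟨0, h0⟩⟩, h0, rfl⟩
    obtain ⟨h2, h3⟩ := ValuationSubring.mem_nonunits_iff_exists_mem_maximalIdeal.1 h1
    exact h3
  let J : Ideal k[X] := RingHom.ker (eval₂RingHom (res.comp κ) (res xB))
  obtain ⟨c, hc⟩ : ∃ c : k, ∀ q ∈ J, q.eval c = 0 := by
    obtain ⟨q₀, hq₀⟩ : ∃ q₀, J = Ideal.span {q₀} :=
      ⟨_, (Submodule.IsPrincipal.span_singleton_generator J).symm⟩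
    obtain ⟨c, hc⟩ : ∃ c : k, q₀.eval c = 0 := by
      by_cases h0 : q₀.degree = 0
      · exfalso
        have h1 : J = ⊤ := by
          rw [hq₀, Ideal.span_singleton_eq_top, isUnit_iff_degree_eq_zero]
          exact h0
        have h2 : (1 : k[X]) ∈ J := h1 ▸ Submodule.mem_top
        rw [RingHom.mem_ker, map_one] at h2
        exact one_ne_zero h2
      · exact IsAlgClosed.exists_root q₀ h0
    refine ⟨c, fun q hq => ?_⟩
    rw [hq₀, Ideal.mem_span_singleton'] at hq
    obtain ⟨r, rfl⟩ := hq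
    rw [eval_mul, hc, mul_zero]
  -- the larger graph
  let φ : Polynomial Γ →+* L × k :=
    eval₂RingHom Γ.subtype (x, c)
  have hφ : ∀ P : Polynomial Γ, ∃ (h : (φ P).1 ∈ B) (q : k[X]),
      res ⟨(φ P).1, h⟩ = eval₂RingHom (res.comp κ) (res xB) q ∧ (φ P).2 = q.eval c := by
    intro P
    induction P using Polynomial.induction_on' with
    | add P Q hP hQ =>
      obtain ⟨h1, q1, e1, f1⟩ := hP
      obtain ⟨h2, q2, e2, f2⟩ := hQ
      refine ⟨by rw [map_add]; exact add_mem h1 h2, q1 + q2, ?_, ?_⟩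
      · rw [map_add (eval₂RingHom (res.comp κ) (res xB)), ← e1, ← e2, ← map_add res]
        exact congrArg res (Subtype.ext (by simp))
      · rw [map_add, Prod.snd_add, f1, f2, eval_add]
    | monomial n a =>
      have ha := hres a.1.1 a.1.2 a.2
      have e : φ (monomial n a) = (a.1.1 * x ^ n, a.1.2 * c ^ n) := by
        simp [φ, eval₂_monomial]
        rfl
      have hm : a.1.1 ∈ B := hRB ((hmem _).2 ⟨a.1.2, a.2⟩)
      refine ⟨by rw [e]; exact mul_mem hm (pow_mem hx n), monomial n a.1.2, ?_,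
        by rw [e]; simp⟩
      simp only [coe_eval₂RingHom, eval₂_monomial, RingHom.comp_apply]
      rw [← ha, ← map_pow, ← map_mul]
      congr 1
      exact Subtype.ext (by simp [e, xB])
  have hG' : IsGraph φ.range := by
    rintro d ⟨P, hP⟩
    obtain ⟨h, q, e, f⟩ := hφ P
    have h0 : (⟨(φ P).1, h⟩ : B) = 0 := Subtype.ext (show (φ P).1 = (0 : L) from congrArg Prod.fst hP)
    rw [h0, map_zero] at e
    rw [hP] at f
    exact f.trans (hc q e.symm)
  have hle : Γ ≤ φ.range := fun a ha => ⟨C ⟨a, ha⟩, by simp [φ]⟩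
  exact ⟨c, hmax _ hG' hle ⟨X, by simp [φ]⟩⟩

/-- A homomorphism to the constants extends to a residue map of a valuation subring. -/
theorem exists_residual (R : Subring L) (χ : R →+* k) (hk : ∀ c : k, algebraMap k L c ∈ R)
    (hχ : ∀ c : k, χ ⟨algebraMap k L c, hk c⟩ = c) :
    ∃ (A : ValuationSubring L) (π : A →+* k), Function.Surjective π ∧ IsLocalHom π ∧
      ∀ x : R, ∃ h : (x : L) ∈ A, π ⟨x, h⟩ = χ x := by
  set Γ₀ := (RingHom.prod R.subtype χ).range
  have h₀ : IsGraph Γ₀ := by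
    rintro c ⟨a, ha⟩
    have h1 : a = 0 := Subtype.ext (congrArg Prod.fst ha)
    rw [h1, map_zero] at ha
    exact (congrArg Prod.snd ha).symm
  obtain ⟨Γ, hle, hΓ⟩ := zorn_le_nonempty₀ {Γ : Subring (L × k) | IsGraph Γ}
    (fun C hC hchain y hy => ⟨sSup C, fun c hc => by
      obtain ⟨Γ', hΓ', h⟩ := (Subring.mem_sSup_of_directedOn ⟨y, hy⟩ hchain.directedOn).1 hc
      exact hC hΓ' c h, fun z hz => le_sSup hz⟩) Γ₀ h₀
  have hk' : ∀ c : k, (algebraMap k L c, c) ∈ Γ := fun c =>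
    hle ⟨⟨_, hk c⟩, Prod.ext rfl (hχ c)⟩
  obtain ⟨B, hB⟩ := mem_of_maximal hΓ.1 hk' fun Γ' h1 h2 => hΓ.2 h1 h2
  choose f hf using fun a : B => (hB a).1 a.2
  let π : B →+* k :=
    { toFun := f
      map_one' := hΓ.1.eq (hf 1) Γ.one_mem
      map_mul' := fun a b => hΓ.1.eq (hf (a * b)) (by
        have := mul_mem (hf a) (hf b)
        rwa [Prod.mk_mul_mk] at this)
      map_zero' := hΓ.1.eq (hf 0) Γ.zero_mem
      map_add' := fun a b => hΓ.1.eq (hf (a + b)) (by
        have := add_mem (hf a) (hf b)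
        rwa [Prod.mk_add_mk] at this) }
  have hsurj : Function.Surjective π := fun c =>
    ⟨⟨_, (hB _).2 ⟨c, hk' c⟩⟩, hΓ.1.eq (hf _) (hk' c)⟩
  refine ⟨B, π, hsurj, ⟨fun a ha => ?_⟩, fun x => ?_⟩
  · by_contra hu
    have h1 : a ∈ RingHom.ker π := by
      rw [IsLocalRing.eq_maximalIdeal (RingHom.ker_isMaximal_of_surjective π hsurj)]
      exact hu
    rw [RingHom.mem_ker] at h1
    rw [h1] at ha
    exact not_isUnit_zero ha
  · have h : ((x : L), χ x) ∈ Γ := hle ⟨x, rfl⟩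
    exact ⟨(hB _).2 ⟨_, h⟩, hΓ.1.eq (hf _) h⟩

end FLTAgent.AV.Const
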