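import Fermat.Agent.Specialization.Divisors
import Fermat.Agent.Specialization.Cover

/-!
# Values at a place and at its specialisation
-/

set_option autoImplicit false
set_option linter.style.haveILetI false
set_option linter.unusedSectionVars false

noncomputable section

open scoped Classical

namespace FLTAgent.AV.Const

open AlgebraicCurve FLTAgent.Curves FLTAgent.Specialization

variable {L k F Fb : Type*} [Field L] [Field k] [Field F] [Field Fb] [Algebra L F] [Algebra k Fb]
  [IsAlgClosed L] [IsAlgClosed k] [IsFunctionField L F] [IsFunctionField k Fb]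
  {A : ValuationSubring L} {π : A →+* k} {M : Model π F Fb} (hM : M.Smooth)

include hM in
/-- A function vanishing at a place and without poles over a place vanishes there after
reduction. -/
theorem ord_pos_of_res {y : F} {yb : Fb} (h : M.Res y yb) (hyb : yb ≠ 0) {Q : Place L F}
    {v : Place k Fb} (hQ : Model.place hM Q = v)
    (hreg : ∀ Q', Model.place hM Q' = v → 0 ≤ Q'.ord y) (h1 : OrdGE Q 1 y) : 1 ≤ v.ord yb := by
  have hy := h.ne_zero hyb
  have hQ1 := h1.le_ord hy
  have e := congrArg (fun D : Divisor k Fb => D v) (Model.divMap_divOf hM h hyb)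
  simp only [divOf_eq_sub y, map_sub, divOf_apply, Finsupp.sub_apply] at e
  have hP : Model.divMap hM (poleDiv L y) v = 0 := by
    rw [Model.divMap_apply, Finsupp.mapDomain, Finsupp.sum, Finsupp.finsetSum_apply]
    refine Finset.sum_eq_zero fun Q' hQ' => ?_
    rw [Finsupp.single_apply]
    split_ifs with hv
    · have := hreg Q' hv
      rw [poleDiv_apply]
      omega
    · rfl
  have hle : Finsupp.single Q (1 : ℤ) ≤ poleDiv L y⁻¹ := fun w => by
    rw [Finsupp.single_apply]
    split_ifs with hw
    · subst hw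
      rw [poleDiv_apply, Q.ord_inv, neg_neg]
      exact le_max_of_le_left hQ1
    · exact poleDiv_nonneg _ w
  have hZ := Model.divMap_mono hM hle v
  rw [Model.divMap_single, hQ, Finsupp.single_eq_same] at hZ
  omega

include hM in
/-- The value lemma: a function without poles over a place takes there the reduction of its
value at any place above it. -/
theorem exists_value {f : F} {fb : Fb} (h : M.Res f fb) {Q : Place L F} {v : Place k Fb}
    (hQ : Model.place hM Q = v) (hreg : ∀ Q', Model.place hM Q' = v → 0 ≤ Q'.ord f) :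
    ∃ a : A, OrdGE Q 1 (f - algebraMap L F a) ∧ OrdGE v 1 (fb - algebraMap k Fb (π a)) := by
  have hreg0 : ∀ Q', Model.place hM Q' = v → OrdGE Q' 0 f := fun Q' hQ' => ordGE_of_le (hreg Q' hQ')
  obtain ⟨r, hr⟩ := exists_residue Q (hreg0 Q hQ)
  have hord : ∀ {c d : L} (Q' : Place L F), Model.place hM Q' = v →
      0 ≤ Q'.ord (c • f - algebraMap L F d) := fun {c d} Q' hQ' => by
    rcases ((hreg0 Q' hQ').smul c).sub (ordGE_algebraMap Q' d) with h' | h'
    · rw [h', Place.ord_zero]
    · exact h'
  by_cases hrA : r ∈ A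
  · refine ⟨⟨r, hrA⟩, hr, ?_⟩
    rcases eq_or_ne (fb - algebraMap k Fb (π ⟨r, hrA⟩)) 0 with h0 | h0
    · exact Or.inl h0
    refine ordGE_of_le (ord_pos_of_res hM (y := f - algebraMap L F r)
      (h.sub (M.res_algebraMap ⟨r, hrA⟩)) h0 hQ (fun Q' hQ' => ?_) hr)
    simpa using hord (c := 1) (d := r) Q' hQ'
  · exfalso
    have hr0 : r ≠ 0 := fun e => hrA (e ▸ A.zero_mem)
    have hinv : r⁻¹ ∈ A := (A.mem_or_inv_mem r).resolve_left hrA
    have h0 : π ⟨r⁻¹, hinv⟩ = 0 :=
      Reduction.map_eq_zero_of_inv_notMem M.surj (a := ⟨r⁻¹, hinv⟩) (by rwa [inv_inv])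
    have hres := (h.smul ⟨r⁻¹, hinv⟩).sub M.res_one
    rw [h0, zero_smul, zero_sub] at hres
    have h1 : OrdGE Q 1 ((r⁻¹ : L) • f - 1) := by
      have := hr.smul r⁻¹
      rwa [smul_sub, Algebra.smul_def r⁻¹ (algebraMap L F r), ← map_mul, inv_mul_cancel₀ hr0,
        map_one] at this
    have := ord_pos_of_res hM (y := (r⁻¹ : L) • f - 1) hres (neg_ne_zero.2 one_ne_zero) hQ
      (fun Q' hQ' => by simpa using hord (c := r⁻¹) (d := 1) Q' hQ') h1
    rw [show (-1 : Fb) = algebraMap k Fb (-1) by simp, ord_algebraMap] at this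
    omega

end FLTAgent.AV.Const
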